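import Fermat.Agent.F4.Datum

/-!
# F4 / BR / Arch : the archimedean place is invisible for `p` odd

`archimedeanDecomposition = ⟨complex conjugation⟩` has order `≤ 2`; for a module killed by an odd
prime its `H¹` and (level-constant) `H²` vanish (`2 x = 0` and `p x = 0`).  Hence the archimedean
local conditions in `sha₁`, `sha₂` are automatic.
-/

set_option autoImplicit false

open CategoryTheory groupCohomology ExtCitation

namespace Fermat.Agent.F4

variable {p : ℕ} [Fact p.Prime]

/-- every element of the archimedean decomposition group is `1` or the generator -/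
lemma arch_eq_one_or (g : archimedeanDecomposition) : g = 1 ∨ g = archimedeanGen := by
  obtain ⟨g, hg⟩ := g
  obtain ⟨k, rfl⟩ := Subgroup.mem_zpowers_iff.1 hg
  rcases Int.even_or_odd k with ⟨m, rfl⟩ | ⟨m, rfl⟩
  · left
    apply Subtype.ext
    show complexConjugation ^ (m + m) = 1
    rw [← two_mul, zpow_mul, zpow_ofNat, complexConjugation_sq, one_zpow]
  · right
    apply Subtype.ext
    show complexConjugation ^ (2 * m + 1) = complexConjugation
    rw [zpow_add, zpow_mul, zpow_ofNat, complexConjugation_sq, one_zpow, one_mul, zpow_one]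

lemma arch_gen_mul_self : (archimedeanGen * archimedeanGen : archimedeanDecomposition) = 1 := by
  apply Subtype.ext
  exact complexConjugation_mul_self

lemma arch_two_ne_zero (hp2 : p ≠ 2) : (2 : ZMod p) ≠ 0 := by
  intro h
  have h2 : ((2 : ℕ) : ZMod p) = 0 := by exact_mod_cast h
  rw [ZMod.natCast_eq_zero_iff] at h2
  have hp : p.Prime := Fact.out
  exact hp2 ((Nat.prime_dvd_prime_iff_eq hp Nat.prime_two).1 h2)

theorem H1_arch_eq_zero (hp2 : p ≠ 2) (A : Rep (ZMod p) GQ) (x : H1 (Rep.res archimedeanLoc A)) :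
    x = 0 := by
  induction x using H1_induction_on with
  | h f =>
  rw [H1π_eq_zero_iff]
  have h2 : (2 : ZMod p) ≠ 0 := arch_two_ne_zero hp2
  have hf := (mem_cocycles₁_iff (f : archimedeanDecomposition → (Rep.res archimedeanLoc A))).1 f.2
  have hf1 : f 1 = 0 := cocycles₁_map_one f
  set c : archimedeanDecomposition := archimedeanGen with hc
  have hcc : (Rep.res archimedeanLoc A).ρ c (f c) = - f c := by
    have := hf c c
    rw [arch_gen_mul_self, hf1] at this
    exact (eq_neg_of_add_eq_zero_left this.symm)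
  refine ⟨(-(2 : ZMod p)⁻¹) • f c, ?_⟩
  funext g
  rw [d₀₁_hom_apply]
  rcases arch_eq_one_or g with rfl | rfl
  · rw [hf1]; simp
  · rw [map_smul, hcc, ← hc]
    rw [neg_smul, neg_smul, smul_neg, neg_neg, sub_neg_eq_add, ← add_smul, ← two_mul,
      mul_inv_cancel₀ h2, one_smul]

/-- the level-constant `H²` of the archimedean decomposition group vanishes for `p` odd -/
theorem arch_continuousH2_eq_zero (hp2 : p ≠ 2) (A : Rep (ZMod p) GQ)
    (y : continuousH2 archimedeanLoc (Rep.res archimedeanLoc A)) : y = 0 := by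
  obtain ⟨f, rfl⟩ := Submodule.Quotient.mk_surjective _ y
  have h2 : (2 : ZMod p) ≠ 0 := arch_two_ne_zero hp2
  change continuousH2π archimedeanLoc (Rep.res archimedeanLoc A) f = 0
  rw [continuousH2π_eq_zero_iff, mem_levelCoboundaries₂_iff]
  obtain ⟨hcoc, F, hF, hlc⟩ := f.2
  set c : archimedeanDecomposition := archimedeanGen with hc
  set φ : archimedeanDecomposition × archimedeanDecomposition → (Rep.res archimedeanLoc A) :=
    (f : archimedeanDecomposition × archimedeanDecomposition → (Rep.res archimedeanLoc A)) with hφ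
  have hcoc' := (mem_cocycles₂_iff φ).1 hcoc
  refine ⟨fun g => (2 : ZMod p)⁻¹ • (φ (g, 1) + φ (g, c)), ⟨F, hF, fun g s hs => ?_⟩, ?_⟩
  · have e1 := hlc g 1 s 1 hs (by rw [map_one]; exact Subgroup.one_mem _)
    have e2 := hlc g c s 1 hs (by rw [map_one]; exact Subgroup.one_mem _)
    rw [mul_one] at e1 e2
    show (2 : ZMod p)⁻¹ • (φ (g * s, 1) + φ (g * s, c)) = (2 : ZMod p)⁻¹ • (φ (g, 1) + φ (g, c))
    rw [e1, e2]
  · funext ⟨g, h⟩
    rw [d₁₂_hom_apply]
    show (Rep.res archimedeanLoc A).ρ g ((2 : ZMod p)⁻¹ • (φ (h, 1) + φ (h, c)))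
        - (2 : ZMod p)⁻¹ • (φ (g * h, 1) + φ (g * h, c))
        + (2 : ZMod p)⁻¹ • (φ (g, 1) + φ (g, c)) = φ (g, h)
    have k1 := hcoc' g h 1
    have k2 := hcoc' g h c
    rw [mul_one] at k1
    have k1' : (Rep.res archimedeanLoc A).ρ g (φ (h, 1)) = φ (g * h, 1) := (add_right_cancel k1).symm
    have k2' : (Rep.res archimedeanLoc A).ρ g (φ (h, c)) = φ (g * h, c) + φ (g, h) - φ (g, h * c) :=
      eq_sub_of_add_eq k2.symm
    rw [map_smul, map_add, k1', k2', ← smul_sub, ← smul_add]
    have key : φ (g * h, 1) + (φ (g * h, c) + φ (g, h) - φ (g, h * c)) - (φ (g * h, 1) + φ (g * h, c))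
        + (φ (g, 1) + φ (g, c)) = (2 : ZMod p) • φ (g, h) := by
      rcases arch_eq_one_or h with rfl | rfl
      · rw [one_mul, two_smul]; abel
      · rw [← hc, show c * c = 1 from arch_gen_mul_self, two_smul]; abel
    rw [key, smul_smul, inv_mul_cancel₀ h2, one_smul]

theorem locRes₂S_arch_eq_zero (hp2 : p ≠ 2) (S : Finset Nat.Primes) (M : Rep (ZMod p) GQ)
    (x : continuousH2S S M) : locRes₂S S M archimedeanLoc x = 0 := by
  exact arch_continuousH2_eq_zero hp2 M _

theorem mem_sha₂_iff (hp2 : p ≠ 2) (S : Finset Nat.Primes) (M : Rep (ZMod p) GQ)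
    (x : continuousH2S S M) :
    x ∈ sha₂ S M ↔ ∀ q : ↥S, locRes₂S S M (primeLocalToGlobal q.1) x = 0 := by
  rw [sha₂, LinearMap.mem_ker]
  constructor
  · intro h q
    have := congrFun h (Sum.inr q)
    exact this
  · intro h
    funext v
    rcases v with v | q
    · exact locRes₂S_arch_eq_zero hp2 S M x
    · exact h q

theorem mem_sha₁_iff (hp2 : p ≠ 2) (S : Finset Nat.Primes) (A : Rep (ZMod p) GQ) (x : H1 A) :
    x ∈ sha₁ S A ↔ x ∈ continuousH1S S A ∧
      ∀ q : ↥S, (locRes (extArithLoc S) A (Sum.inr q)).hom x = 0 := by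
  rw [sha₁, Submodule.mem_inf, LinearMap.mem_ker]
  refine and_congr_right fun _ => ?_
  constructor
  · intro h q
    have := congrFun h (Sum.inr q)
    exact this
  · intro h
    funext v
    rcases v with v | q
    · exact H1_arch_eq_zero hp2 A _
    · exact h q

end Fermat.Agent.F4
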