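import Fermat.Agent.F4.Datum

/-!
# F4 / BR / LevelsBridge : the level structures `levelsS S`, `levelsAll` versus the Prelude

The Prelude's `IsLevelConstantS₁/₂ S` (resp. `IsLevelConstant₁/₂ r`) quantify over finite extensions
`F/ℚ` unramified outside `S` (resp. all finite `F`), not necessarily normal; `levelsS S`
(resp. `levelsAll`) uses the normal ones.  They agree: replace `F` by its normal closure
(which is finite, and unramified outside `S` because the condition in `IsUnramifiedOutside`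
quantifies over all valuation subrings above `q`, hence is stable under conjugation).
-/

set_option autoImplicit false

open CategoryTheory groupCohomology ExtCitation
open scoped Pointwise

namespace Fermat.Agent.F4


section Inertia

variable {K L : Type*} [Field K] [Field L] [Algebra K L]

/-- Elementwise description of the inertia subgroup. -/
theorem br_mem_inertiaSubgroupIn_iff (A : ValuationSubring L) (τ : L ≃ₐ[K] L) :
    τ ∈ A.inertiaSubgroupIn K ↔ τ • A = A ∧ ∀ a ∈ A, τ a - a ∈ A.nonunits := by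
  constructor
  · rintro ⟨g, hg, rfl⟩
    refine ⟨g.2, fun a ha => ?_⟩
    have hg' : MulSemiringAction.toRingAut (A.decompositionSubgroup K)
        (IsLocalRing.ResidueField A) g = 1 := hg
    have h1 : g • (IsLocalRing.residue A ⟨a, ha⟩) = IsLocalRing.residue A ⟨a, ha⟩ := by
      have := congrArg (fun φ : RingAut (IsLocalRing.ResidueField A) =>
        φ (IsLocalRing.residue A ⟨a, ha⟩)) hg'
      exact this
    have h2 : IsLocalRing.residue A (g • (⟨a, ha⟩ : A) - ⟨a, ha⟩) = 0 := by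
      rw [map_sub, sub_eq_zero]
      exact h1
    have h3 : (g • (⟨a, ha⟩ : A) - ⟨a, ha⟩) ∈ IsLocalRing.maximalIdeal A :=
      (IsLocalRing.residue_eq_zero_iff _).mp h2
    exact (A.coe_mem_nonunits_iff).mpr h3
  · rintro ⟨hτ, h⟩
    have hdec : τ ∈ A.decompositionSubgroup K := hτ
    refine ⟨⟨τ, hdec⟩, ?_, rfl⟩
    change MulSemiringAction.toRingAut (A.decompositionSubgroup K)
        (IsLocalRing.ResidueField A) ⟨τ, hdec⟩ = 1
    ext x
    change (⟨τ, hdec⟩ : A.decompositionSubgroup K) • x = x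
    obtain ⟨a, rfl⟩ := IsLocalRing.residue_surjective x
    have h3 : ((⟨τ, hdec⟩ : A.decompositionSubgroup K) • a - a) ∈ IsLocalRing.maximalIdeal A := by
      rw [← A.coe_mem_nonunits_iff]
      exact h a.1 a.2
    have h2 := (IsLocalRing.residue_eq_zero_iff _).mpr h3
    rw [map_sub, sub_eq_zero] at h2
    exact h2

theorem br_smul_mem_nonunits (A : ValuationSubring L) (σ : L ≃ₐ[K] L) {x : L}
    (hx : x ∈ A.nonunits) : σ x ∈ (σ • A).nonunits := by
  rw [ValuationSubring.mem_nonunits_iff_or] at hx ⊢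
  rcases hx with rfl | hx
  · left; simp
  · right
    intro h
    apply hx
    rw [← map_inv₀] at h
    exact (ValuationSubring.smul_mem_pointwise_smul_iff (g := σ)).mp h

/-- Conjugation of inertia subgroups. -/
theorem br_conj_mem_inertiaSubgroupIn (A : ValuationSubring L) (σ τ : L ≃ₐ[K] L)
    (hτ : τ ∈ A.inertiaSubgroupIn K) : σ * τ * σ⁻¹ ∈ (σ • A).inertiaSubgroupIn K := by
  rw [br_mem_inertiaSubgroupIn_iff] at hτ ⊢
  obtain ⟨h1, h2⟩ := hτ
  refine ⟨?_, ?_⟩
  · rw [mul_smul, inv_smul_smul, mul_smul, h1]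
  · intro b hb
    obtain ⟨a, ha, rfl⟩ := (ValuationSubring.mem_smul_pointwise_iff_exists σ b A).mp hb
    have h3 := br_smul_mem_nonunits A σ (h2 a ha)
    have h4 : (σ * τ * σ⁻¹) (σ • a) - σ • a = σ (τ a - a) := by
      rw [map_sub]
      congr 1
      show σ (τ (σ⁻¹ (σ a))) = σ (τ a)
      congr 2
      show σ.symm (σ a) = a
      simp
    rw [h4]
    exact h3

theorem br_liesOverPrime_smul (A : ValuationSubring L) (σ : L ≃ₐ[K] L) (q : ℕ)
    (hA : A.LiesOverPrime q) : (σ • A).LiesOverPrime q := by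
  have := br_smul_mem_nonunits A σ hA
  rwa [map_natCast] at this

end Inertia



section NormalClosure

attribute [local instance] isGalois_Qbar

/-- The normal closure of a finite subextension of `ℚ̄/ℚ`: finite, stable, and its fixing subgroup
contains every element all of whose conjugates fix `F`. -/
theorem br_exists_stable (F : IntermediateField ℚ (AlgebraicClosure ℚ))
    (hF : FiniteDimensional ℚ F) :
    ∃ F' : IntermediateField ℚ (AlgebraicClosure ℚ), F ≤ F' ∧ FiniteDimensional ℚ F' ∧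
      IsStableField F' ∧
      ∀ τ : GQ, (∀ σ : GQ, σ⁻¹ * τ * σ ∈ F.fixingSubgroup) → τ ∈ F'.fixingSubgroup := by
  have hnorm : Normal ℚ (AlgebraicClosure ℚ) := inferInstance
  have hdef := IntermediateField.normalClosure_def'' (F := ℚ) (L := AlgebraicClosure ℚ) F
  have hfin : FiniteDimensional ℚ
      (↥(⨆ f : GQ, F.map (f : AlgebraicClosure ℚ →ₐ[ℚ] AlgebraicClosure ℚ))) := by
    rw [← hdef]
    exact normalClosure.is_finiteDimensional ℚ F (AlgebraicClosure ℚ)
  refine ⟨⨆ f : GQ, F.map (f : AlgebraicClosure ℚ →ₐ[ℚ] AlgebraicClosure ℚ), ?_, hfin, ?_, ?_⟩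
  · intro y hy
    have : y ∈ F.map (((1 : GQ) : GQ) : AlgebraicClosure ℚ →ₐ[ℚ] AlgebraicClosure ℚ) :=
      ⟨y, hy, rfl⟩
    exact (le_iSup (fun f : GQ => F.map (f : AlgebraicClosure ℚ →ₐ[ℚ] AlgebraicClosure ℚ)) 1) this
  · intro σ x hx
    have hle : (⨆ f : GQ, F.map (f : AlgebraicClosure ℚ →ₐ[ℚ] AlgebraicClosure ℚ)) ≤
        (⨆ f : GQ, F.map (f : AlgebraicClosure ℚ →ₐ[ℚ] AlgebraicClosure ℚ)).comap
          (σ : AlgebraicClosure ℚ →ₐ[ℚ] AlgebraicClosure ℚ) := by
      refine iSup_le fun f => ?_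
      rintro _ ⟨y, hy, rfl⟩
      show σ (f y) ∈ (⨆ f : GQ, F.map (f : AlgebraicClosure ℚ →ₐ[ℚ] AlgebraicClosure ℚ))
      have : σ (f y) ∈ F.map ((σ * f : GQ) : AlgebraicClosure ℚ →ₐ[ℚ] AlgebraicClosure ℚ) :=
        ⟨y, hy, rfl⟩
      exact (le_iSup (fun f : GQ => F.map (f : AlgebraicClosure ℚ →ₐ[ℚ] AlgebraicClosure ℚ))
        (σ * f)) this
    exact hle hx
  · intro τ hτ
    rw [IntermediateField.mem_fixingSubgroup_iff]
    have hle : (⨆ f : GQ, F.map (f : AlgebraicClosure ℚ →ₐ[ℚ] AlgebraicClosure ℚ)) ≤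
        IntermediateField.fixedField (Subgroup.zpowers τ) := by
      refine iSup_le fun σ => ?_
      rintro _ ⟨y, hy, rfl⟩
      have h1 := (IntermediateField.mem_fixingSubgroup_iff F _).mp (hτ σ) y hy
      have h2 : τ (σ y) = σ y := by
        have h3 : (σ⁻¹ * τ * σ) y = σ⁻¹ (τ (σ y)) := rfl
        have h4 : σ⁻¹ (τ (σ y)) = y := by
          rw [← h3]; exact h1
        have h5 := congrArg σ h4
        rw [show σ (σ⁻¹ (τ (σ y))) = τ (σ y) from σ.apply_symm_apply _] at h5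
        exact h5
      rintro ⟨g, hg⟩
      obtain ⟨n, rfl⟩ := Subgroup.mem_zpowers_iff.mp hg
      show (τ ^ n) (σ y) = σ y
      have hfix : τ ∈ MulAction.stabilizer GQ (σ y) := h2
      exact (Subgroup.zpow_mem _ hfix n)
    intro x hx
    have := hle hx
    exact this ⟨τ, Subgroup.mem_zpowers τ⟩

end NormalClosure


/-- A finite extension unramified outside `S` is contained in a finite stable one. -/
theorem br_exists_stable_unramified (S : Finset Nat.Primes)
    (F : IntermediateField ℚ (AlgebraicClosure ℚ)) (hF : F.IsUnramifiedOutside S) :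
    ∃ F' : IntermediateField ℚ (AlgebraicClosure ℚ), F ≤ F' ∧ F'.IsUnramifiedOutside S ∧
      IsStableField F' := by
  obtain ⟨F', hle, hfin, hst, hfix⟩ := br_exists_stable F hF.1
  refine ⟨F', hle, ⟨hfin, fun q hq A hA τ hτ => ?_⟩, hst⟩
  refine hfix τ fun σ => ?_
  have h1 := br_conj_mem_inertiaSubgroupIn (K := ℚ) A σ⁻¹ τ hτ
  rw [inv_inv] at h1
  exact hF.2 q hq (σ⁻¹ • A) (br_liesOverPrime_smul (K := ℚ) A σ⁻¹ q hA) h1

theorem isLC₁_levelsS_iff (S : Finset Nat.Primes) {X : Type*} (f : GQ → X) :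
    IsLC₁ (levelsS S) f ↔ IsLevelConstantS₁ S f := by
  constructor
  · rintro ⟨_, ⟨F, hF, _, rfl⟩, h⟩
    exact ⟨F, hF, h⟩
  · rintro ⟨F, hF, h⟩
    obtain ⟨F', hle, hF', hst⟩ := br_exists_stable_unramified S F hF
    exact ⟨F'.fixingSubgroup, ⟨F', hF', hst, rfl⟩, fun g s hs =>
      h g s (IntermediateField.fixingSubgroup_antitone hle hs)⟩

theorem isLC₂_levelsS_iff (S : Finset Nat.Primes) {X : Type*} (f : GQ × GQ → X) :
    IsLC₂ (levelsS S) f ↔ IsLevelConstantS₂ S f := by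
  constructor
  · rintro ⟨_, ⟨F, hF, _, rfl⟩, h⟩
    exact ⟨F, hF, h⟩
  · rintro ⟨F, hF, h⟩
    obtain ⟨F', hle, hF', hst⟩ := br_exists_stable_unramified S F hF
    exact ⟨F'.fixingSubgroup, ⟨F', hF', hst, rfl⟩, fun g g' s s' hs hs' =>
      h g g' s s' (IntermediateField.fixingSubgroup_antitone hle hs)
        (IntermediateField.fixingSubgroup_antitone hle hs')⟩

theorem isLC₁_levelsAll_comap_iff {H : Type} [Group H] (r : H →* GQ) {X : Type*} (f : H → X) :
    IsLC₁ (levelsAll.comap r) f ↔ IsLevelConstant₁ r f := by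
  constructor
  · rintro ⟨_, ⟨_, ⟨F, hF, _, rfl⟩, rfl⟩, h⟩
    exact ⟨F, hF, fun g s hs => h g s hs⟩
  · rintro ⟨F, hF, h⟩
    obtain ⟨F', hle, hF', hst, -⟩ := br_exists_stable F hF
    exact ⟨F'.fixingSubgroup.comap r, ⟨F'.fixingSubgroup, ⟨F', hF', hst, rfl⟩, rfl⟩,
      fun g s hs => h g s (IntermediateField.fixingSubgroup_antitone hle hs)⟩

theorem isLC₂_levelsAll_comap_iff {H : Type} [Group H] (r : H →* GQ) {X : Type*}
    (f : H × H → X) : IsLC₂ (levelsAll.comap r) f ↔ IsLevelConstant₂ r f := by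
  constructor
  · rintro ⟨_, ⟨_, ⟨F, hF, _, rfl⟩, rfl⟩, h⟩
    exact ⟨F, hF, fun g g' s s' hs hs' => h g g' s s' hs hs'⟩
  · rintro ⟨F, hF, h⟩
    obtain ⟨F', hle, hF', hst, -⟩ := br_exists_stable F hF
    exact ⟨F'.fixingSubgroup.comap r, ⟨F'.fixingSubgroup, ⟨F', hF', hst, rfl⟩, rfl⟩,
      fun g g' s s' hs hs' => h g g' s s' (IntermediateField.fixingSubgroup_antitone hle hs)
        (IntermediateField.fixingSubgroup_antitone hle hs')⟩

/-- Every `S`-level is a level. -/
theorem levelsS_sets_subset (S : Finset Nat.Primes) : (levelsS S).sets ⊆ levelsAll.sets := by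
  rintro _ ⟨F, hF, hG, rfl⟩
  exact ⟨F, hF.1, hG, rfl⟩

variable {k : Type} [CommRing k]

theorem br_lc₁_levelsS_eq (S : Finset Nat.Primes) (M : Rep.{0} k GQ) :
    lc₁ (levelsS S) M = levelCochainsS₁ S M := by
  ext f
  exact isLC₁_levelsS_iff S f

theorem br_lc₂_levelsS_eq (S : Finset Nat.Primes) (M : Rep.{0} k GQ) :
    lc₂ (levelsS S) M = levelCochainsS₂ S M := by
  ext f
  exact isLC₂_levelsS_iff S f

theorem Z2_levelsS_eq (S : Finset Nat.Primes) (M : Rep.{0} k GQ) :
    Z2 (levelsS S) M = levelCocyclesS₂ S M := by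
  rw [Z2, levelCocyclesS₂, br_lc₂_levelsS_eq]

theorem B2_levelsS_eq (S : Finset Nat.Primes) (M : Rep.{0} k GQ) :
    B2 (levelsS S) M = levelCoboundariesS₂ S M := by
  rw [B2, levelCoboundariesS₂, br_lc₁_levelsS_eq]

/-- A class in `continuousH1S` is the class of a smooth cocycle. -/
theorem mem_continuousH1S_iff_Z1 (S : Finset Nat.Primes) (M : Rep.{0} k GQ) (x : H1 M) :
    x ∈ continuousH1S S M ↔
      ∃ c : GQ → M, ∃ hc : c ∈ Z1 (levelsS S) M, (H1π M).hom ⟨c, hc.1⟩ = x := by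
  rw [mem_continuousH1S_iff]
  constructor
  · rintro ⟨c, hc, rfl⟩
    exact ⟨c.1, ⟨c.2, (isLC₁_levelsS_iff S _).mpr hc⟩, rfl⟩
  · rintro ⟨c, hc, rfl⟩
    exact ⟨⟨c, hc.1⟩, (isLC₁_levelsS_iff S _).mp hc.2, rfl⟩

end Fermat.Agent.F4
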