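import Fermat.Agent.F4.Datum
import Fermat.Agent.Lib.Cyclo.ModCharGlobal

/-!
# F4 / BR / Smooth : the modules of S55 are smooth for `levelsS S`

* `M` finite-dimensional, every vector fixed by an open subgroup, inertia outside `S` acting
  trivially: the kernel of the action is `F.fixingSubgroup` for a finite normal `F/ℚ` unramified
  outside `S`.
* `𝔽_p(1)`: the cyclotomic character mod `p` factors through `ℚ(μ_p)`, unramified outside `p ∈ S`.
* `M' = M.dualTwist (cycloChar p)`.
-/

set_option autoImplicit false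

open CategoryTheory groupCohomology ExtCitation

namespace Fermat.Agent.F4

variable {p : ℕ} [Fact p.Prime]

/-! ### A normal subgroup containing an open one, trivial on inertia outside `S`, is a level -/

/-- A normal subgroup `K` of `Gal(ℚ̄/ℚ)` which contains the fixing subgroup of a finite extension
and all inertia groups outside `S` is a member of `levelsS S`. -/
theorem br_smooth_mem_levelsS (S : Finset Nat.Primes) (K : Subgroup GQ) [hK : K.Normal]
    (F₀ : IntermediateField ℚ (AlgebraicClosure ℚ)) [FiniteDimensional ℚ F₀]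
    (hF₀ : F₀.fixingSubgroup ≤ K)
    (hur : ∀ q : Nat.Primes, q ∉ S → ∀ A : ValuationSubring (AlgebraicClosure ℚ),
      A.LiesOverPrime (q : ℕ) → A.inertiaSubgroupIn ℚ ≤ K) :
    K ∈ (levelsS S).sets := by
  have := isGalois_Qbar
  have hopen : IsOpen (K : Set GQ) :=
    Subgroup.isOpen_mono hF₀ (IntermediateField.fixingSubgroup_isOpen F₀)
  have hclosed : IsClosed (K : Set GQ) := Subgroup.isClosed_of_isOpen K hopen
  let Kc : ClosedSubgroup GQ := ⟨K, hclosed⟩
  have hfix : (IntermediateField.fixedField K).fixingSubgroup = K :=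
    InfiniteGalois.fixingSubgroup_fixedField Kc
  have hle : IntermediateField.fixedField K ≤ F₀ := by
    have h1 : IntermediateField.fixedField K ≤
        IntermediateField.fixedField F₀.fixingSubgroup := by
      intro x hx
      rw [IntermediateField.mem_fixedField_iff] at hx ⊢
      exact fun σ hσ => hx σ (hF₀ hσ)
    rwa [InfiniteGalois.fixedField_fixingSubgroup] at h1
  have hfd : FiniteDimensional ℚ (IntermediateField.fixedField K) :=
    FiniteDimensional.of_injective (IntermediateField.inclusion hle).toLinearMap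
      (IntermediateField.inclusion_injective hle)
  refine ⟨IntermediateField.fixedField K, ⟨hfd, fun q hq A hA => ?_⟩, ?_, hfix.symm⟩
  · rw [hfix]
    exact hur q hq A hA
  · intro σ x hx
    rw [IntermediateField.mem_fixedField_iff] at hx ⊢
    intro τ hτ
    have h2 : σ⁻¹ * τ * σ ∈ K := by
      have := hK.conj_mem τ hτ σ⁻¹
      simpa using this
    have h3 := hx _ h2
    have h4 : σ ((σ⁻¹ * τ * σ) x) = τ (σ x) := by
      show σ (σ⁻¹ (τ (σ x))) = τ (σ x)
      show σ (σ.symm (τ (σ x))) = τ (σ x)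
      simp
    rw [← h4, h3]

theorem isSmooth_of_unramified (S : Finset Nat.Primes) (M : Rep (ZMod p) GQ)
    [FiniteDimensional (ZMod p) M]
    (hsm : ∀ m : M, ∃ F : IntermediateField ℚ (AlgebraicClosure ℚ), FiniteDimensional ℚ F ∧
      ∀ s ∈ F.fixingSubgroup, M.ρ s m = m)
    (hMur : ∀ q : Nat.Primes, q ∉ S → ∀ A : ValuationSubring (AlgebraicClosure ℚ),
      A.LiesOverPrime (q : ℕ) → ∀ g ∈ A.inertiaSubgroupIn ℚ, M.ρ g = 1) :
    IsSmooth (levelsS S) M := by
  classical
  have : Finite M := Module.finite_of_finite (ZMod p)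
  choose F hFfd hF using hsm
  have : ∀ m, FiniteDimensional ℚ (F m) := hFfd
  have hK : (M.ρ.ker) ∈ (levelsS S).sets := by
    refine br_smooth_mem_levelsS S M.ρ.ker (⨆ m, F m) ?_ ?_
    · intro s hs
      rw [MonoidHom.mem_ker]
      refine LinearMap.ext fun m => ?_
      exact hF m s (IntermediateField.fixingSubgroup_antitone (le_iSup F m) hs)
    · intro q hq A hA g hg
      exact MonoidHom.mem_ker.2 (hMur q hq A hA g hg)
  intro a
  refine ⟨M.ρ.ker, hK, fun g hg => ?_⟩
  rw [MonoidHom.mem_ker.1 hg]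
  rfl

/-! ### `𝔽_p(1)` -/

/-- The mod `p` cyclotomic character is trivial on automorphisms fixing the `p`-th roots of
unity. -/
theorem br_smooth_cycloChar_eq_one (σ : GQ)
    (h : ∀ t : AlgebraicClosure ℚ, t ^ p = 1 → σ t = t) : cycloChar p σ = 1 := by
  have : NeZero p := ⟨(Fact.out : p.Prime).ne_zero⟩
  apply Units.ext
  rw [Units.val_one]
  symm
  apply modularCyclotomicCharacter.unique (AlgebraicClosure ℚ) (card_rootsOfUnity_eq_self p)
    (σ : AlgebraicClosure ℚ ≃+* AlgebraicClosure ℚ)
  intro t ht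
  have ht' : (t : AlgebraicClosure ℚ) ^ p = 1 := by
    have := (mem_rootsOfUnity p t).mp ht
    rw [← Units.val_pow_eq_pow_val, this, Units.val_one]
  have := h t ht'
  rw [ZMod.val_one_eq_one_mod, ← pow_eq_pow_mod 1 ht', pow_one]
  exact this

/-- The mod `p` cyclotomic character is trivial on inertia at `q ≠ p`. -/
theorem br_smooth_cycloChar_inertia {q : ℕ} (hq : q.Prime) (hqp : q ≠ p)
    (A : ValuationSubring (AlgebraicClosure ℚ)) (hA : A.LiesOverPrime q) (σ : GQ)
    (hσ : σ ∈ A.inertiaSubgroupIn ℚ) : cycloChar p σ = 1 := by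
  have : NeZero p := ⟨(Fact.out : p.Prime).ne_zero⟩
  have hp0 : p ≠ 0 := (Fact.out : p.Prime).ne_zero
  have hndvd : ¬ q ∣ p := fun h =>
    hqp ((Nat.prime_dvd_prime_iff_eq hq (Fact.out : p.Prime)).1 h)
  apply br_smooth_cycloChar_eq_one
  intro t ht
  refine Cyclo.root_eq_of_sub_mem_nonunits p A hq hA hndvd ?_ ht
    (Cyclo.inertia_sub_mem_nonunits A hσ (Cyclo.pow_eq_one_mem A hp0 ht))
  rw [← map_pow, ht, map_one]

/-- The action on `𝔽_p(1)`. -/
theorem br_smooth_Fp1_ρ (g : GQ) (m : Fp1 p) :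
    (Fp1 p).ρ g m = ((cycloChar p g : (ZMod p)ˣ) : ZMod p) • m := rfl

theorem isSmooth_Fp1 (S : Finset Nat.Primes) (hpS : pPrime p ∈ S) :
    IsSmooth (levelsS S) (Fp1 p) := by
  have : NeZero p := ⟨(Fact.out : p.Prime).ne_zero⟩
  have : FiniteDimensional (ZMod p) (Fp1 p) := by
    show FiniteDimensional (ZMod p) (ZMod p)
    infer_instance
  refine isSmooth_of_unramified S (Fp1 p) (fun m => ?_) (fun q hq A hA g hg => ?_)
  · refine ⟨Cyclo.cycloField p, inferInstance, fun s hs => ?_⟩
    rw [br_smooth_Fp1_ρ]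
    have h1 : cycloChar p s = 1 := by
      apply br_smooth_cycloChar_eq_one
      intro t ht
      exact (IntermediateField.mem_fixingSubgroup_iff _ _).1 hs t
        (Cyclo.mem_cycloField_of_pow_eq_one p ht)
    rw [h1, Units.val_one, one_smul]
  · have hqp : (q : ℕ) ≠ p := by
      intro h
      apply hq
      have : q = pPrime p := Subtype.ext h
      rw [this]
      exact hpS
    have h1 : cycloChar p g = 1 := br_smooth_cycloChar_inertia q.2 hqp A hA g hg
    refine LinearMap.ext fun m => ?_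
    rw [br_smooth_Fp1_ρ, h1, Units.val_one, one_smul]
    rfl

/-! ### The twisted dual -/

/-- Finitely many levels have a common lower bound. -/
theorem br_smooth_exists_common {G : Type} [Group G] (𝓤 : Levels G) {ι : Type*} (s : Finset ι)
    (U : ι → Subgroup G) (hU : ∀ i, U i ∈ 𝓤.sets) : ∃ W ∈ 𝓤.sets, ∀ i ∈ s, W ≤ U i := by
  classical
  induction s using Finset.induction_on with
  | empty =>
    obtain ⟨W, hW⟩ := 𝓤.nonempty
    exact ⟨W, hW, by simp⟩
  | insert a s ha ih =>
    obtain ⟨W, hW, h⟩ := ih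
    obtain ⟨W', hW', hle⟩ := 𝓤.directed W hW (U a) (hU a)
    refine ⟨W', hW', fun i hi => ?_⟩
    rcases Finset.mem_insert.1 hi with rfl | hi
    · exact hle.trans inf_le_right
    · exact (hle.trans inf_le_left).trans (h i hi)

/-- A finite smooth module is fixed pointwise by a single level. -/
theorem br_smooth_exists_level_of_finite {k G : Type} [CommRing k] [Group G] (𝓤 : Levels G)
    (A : Rep.{0} k G) [Finite A] (hA : IsSmooth 𝓤 A) :
    ∃ W ∈ 𝓤.sets, ∀ g ∈ W, ∀ a : A, A.ρ g a = a := by
  classical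
  cases nonempty_fintype A
  choose U hU hfix using hA
  obtain ⟨W, hW, hle⟩ := br_smooth_exists_common 𝓤 (Finset.univ : Finset A) U hU
  exact ⟨W, hW, fun g hg a => hfix a g (hle a (Finset.mem_univ a) hg)⟩

theorem isSmooth_dualTwist (S : Finset Nat.Primes) (hpS : pPrime p ∈ S) (M : Rep (ZMod p) GQ)
    [FiniteDimensional (ZMod p) M] (hM : IsSmooth (levelsS S) M) :
    IsSmooth (levelsS S) (M.dualTwist (cycloChar p)) := by
  have : Finite M := Module.finite_of_finite (ZMod p)
  obtain ⟨U, hU, hUfix⟩ := br_smooth_exists_level_of_finite (levelsS S) M hM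
  obtain ⟨V, hV, hVfix⟩ := isSmooth_Fp1 (p := p) S hpS (1 : ZMod p)
  obtain ⟨W, hW, hWle⟩ := (levelsS S).directed U hU V hV
  intro f
  refine ⟨W, hW, fun g hg => ?_⟩
  have h1 : ((cycloChar p g : (ZMod p)ˣ) : ZMod p) = 1 := by
    have h2 := hVfix g (hWle hg).2
    rw [br_smooth_Fp1_ρ] at h2
    simpa using h2
  rw [Rep.dualTwist_ρ_apply, h1, one_smul]
  refine LinearMap.ext fun m => ?_
  show f (M.ρ g⁻¹ m) = f m
  rw [hUfix g⁻¹ (U.inv_mem (hWle hg).1) m]

end Fermat.Agent.F4
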