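import Mathlib
import Fermat.Prelude.Def_GroupCohomology_ContinuousUnramified

/-!
# F4 / BR / ArchAux : cohomology of a finite group whose order is invertible in the coefficients

For a finite group `G` and `A : Rep k G` with `Nat.card G` invertible in `k`:
* every `1`-cocycle is a coboundary (`H¹(G, A) = 0`);
* every level-constant `2`-cocycle is the coboundary of a level-constant `1`-cochain
  (the level-constant `H²` vanishes).
Applied to `archimedeanDecomposition = ⟨complex conjugation⟩` (order `∣ 2`) and `k = 𝔽_p`, `p` odd.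
-/

set_option autoImplicit false

open CategoryTheory groupCohomology ExtCitation

namespace Fermat.Agent.F4

section FiniteGroup

variable {k G : Type} [CommRing k] [Group G]

/-- A `1`-cocycle of a finite group with order invertible in `k` is a coboundary. -/
theorem cocycle₁_mem_coboundaries₁_of_card_inv [Finite G] (A : Rep k G) (u : k)
    (hu : u * (Nat.card G : k) = 1) (c : cocycles₁ A) : ⇑c ∈ coboundaries₁ A := by
  classical
  cases nonempty_fintype G
  refine ⟨-(u • ∑ h : G, c h), ?_⟩
  funext g
  rw [d₀₁_hom_apply]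
  have hc := (mem_cocycles₁_iff c).1 c.2
  have hsum : ∑ h : G, c (g * h) = ∑ h : G, c h :=
    Fintype.sum_equiv (Equiv.mulLeft g) _ _ (fun _ => rfl)
  have h2 : ∑ h : G, c (g * h) = A.ρ g (∑ h : G, c h) + (Nat.card G : k) • c g := by
    simp only [hc, Finset.sum_add_distrib, map_sum, Finset.sum_const, Finset.card_univ,
      Nat.card_eq_fintype_card, Nat.cast_smul_eq_nsmul]
  rw [hsum] at h2
  have h3 : (Nat.card G : k) • c g = (∑ h : G, c h) - A.ρ g (∑ h : G, c h) := by
    rw [eq_sub_iff_add_eq, add_comm]; exact h2.symm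
  calc A.ρ g (-(u • ∑ h : G, c h)) - -(u • ∑ h : G, c h)
      = u • ((∑ h : G, c h) - A.ρ g (∑ h : G, c h)) := by
        rw [map_neg, map_smul, smul_sub]; abel
    _ = c g := by rw [← h3, smul_smul, hu, one_smul]

/-- `H¹` of a finite group with order invertible in `k` vanishes. -/
theorem H1_eq_zero_of_card_inv [Finite G] (A : Rep k G) (u : k)
    (hu : u * (Nat.card G : k) = 1) (x : H1 A) : x = 0 := by
  induction x using H1_induction_on with
  | h c =>
    rw [H1π_eq_zero_iff]
    exact cocycle₁_mem_coboundaries₁_of_card_inv A u hu c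

/-- A level-constant `2`-cocycle of a finite group with order invertible in `k` is the coboundary
of a level-constant `1`-cochain. -/
theorem levelCocycles₂_le_levelCoboundaries₂_of_card_inv [Finite G]
    (r : G →* (AlgebraicClosure ℚ ≃ₐ[ℚ] AlgebraicClosure ℚ)) (A : Rep k G) (u : k)
    (hu : u * (Nat.card G : k) = 1) :
    levelCocycles₂ r A ≤ levelCoboundaries₂ r A := by
  classical
  cases nonempty_fintype G
  intro f hf
  obtain ⟨hcoc, F, hF, hlc⟩ := hf
  rw [mem_levelCoboundaries₂_iff]
  refine ⟨fun g => u • ∑ j : G, f (g, j), ⟨F, hF, fun g s hs => ?_⟩, ?_⟩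
  · have : ∀ j : G, f (g * s, j) = f (g, j) := fun j => by
      have := hlc g j s 1 hs (by rw [map_one]; exact one_mem _)
      rwa [mul_one] at this
    simp only [this]
  · funext ⟨g, h⟩
    rw [d₁₂_hom_apply]
    have hc := (mem_cocycles₂_iff f).1 hcoc
    have hsum : ∑ j : G, f (g, h * j) = ∑ j : G, f (g, j) :=
      Fintype.sum_equiv (Equiv.mulLeft h) _ _ (fun _ => rfl)
    have h2 : ∑ j : G, f (g * h, j) + (Nat.card G : k) • f (g, h)
        = A.ρ g (∑ j : G, f (h, j)) + ∑ j : G, f (g, j) := by
      rw [← hsum, map_sum, ← Finset.sum_add_distrib]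
      simp only [← hc, Finset.sum_add_distrib, Finset.sum_const, Finset.card_univ,
        Nat.card_eq_fintype_card, Nat.cast_smul_eq_nsmul]
    have h3 : (Nat.card G : k) • f (g, h)
        = A.ρ g (∑ j : G, f (h, j)) - ∑ j : G, f (g * h, j) + ∑ j : G, f (g, j) := by
      rw [sub_add_eq_add_sub, eq_sub_iff_add_eq, add_comm]; exact h2
    show A.ρ g (u • ∑ j : G, f (h, j)) - u • ∑ j : G, f (g * h, j) + u • ∑ j : G, f (g, j)
      = f (g, h)
    rw [map_smul, ← smul_sub, ← smul_add, ← h3, smul_smul, hu, one_smul]

/-- The level-constant `H²` of a finite group with order invertible in `k` vanishes. -/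
theorem continuousH2_eq_zero_of_card_inv [Finite G]
    (r : G →* (AlgebraicClosure ℚ ≃ₐ[ℚ] AlgebraicClosure ℚ)) (A : Rep k G) (u : k)
    (hu : u * (Nat.card G : k) = 1) (x : continuousH2 r A) : x = 0 := by
  obtain ⟨c, rfl⟩ := Submodule.Quotient.mk_surjective _ x
  rw [Submodule.Quotient.mk_eq_zero, Submodule.mem_comap]
  exact levelCocycles₂_le_levelCoboundaries₂_of_card_inv r A u hu c.2

end FiniteGroup

section Arch

/-- The archimedean decomposition group is finite. -/
theorem finite_archimedeanDecomposition : Finite ↥archimedeanDecomposition := by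
  have h : IsOfFinOrder complexConjugation :=
    isOfFinOrder_iff_pow_eq_one.2 ⟨2, by norm_num, complexConjugation_sq⟩
  exact (h.finite_zpowers).to_subtype

/-- The order of the archimedean decomposition group divides `2`. -/
theorem card_archimedeanDecomposition_dvd : Nat.card ↥archimedeanDecomposition ∣ 2 := by
  show Nat.card ↥(Subgroup.zpowers complexConjugation) ∣ 2
  rw [Nat.card_zpowers]
  exact orderOf_dvd_of_pow_eq_one complexConjugation_sq

/-- For `p` odd, the order of the archimedean decomposition group is invertible in `𝔽_p`. -/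
theorem exists_inv_card_archimedeanDecomposition {p : ℕ} [Fact p.Prime] (hp2 : p ≠ 2) :
    ∃ u : ZMod p, u * (Nat.card ↥archimedeanDecomposition : ZMod p) = 1 := by
  have hcop : (Nat.card ↥archimedeanDecomposition).Coprime p := by
    have h2 : Nat.Coprime 2 p := by
      rw [Nat.coprime_comm]
      exact (Nat.coprime_primes Fact.out Nat.prime_two).2 hp2
    exact Nat.Coprime.coprime_dvd_left card_archimedeanDecomposition_dvd h2
  exact ⟨((Nat.card ↥archimedeanDecomposition : ZMod p))⁻¹, ZMod.inv_mul_of_unit _
    ((ZMod.isUnit_iff_coprime _ _).2 hcop)⟩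

end Arch

end Fermat.Agent.F4
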